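/-
C1 nodal core, instantiation, BLOCK Gal (helper34): the action of the decomposition group of `A` on
the Gauss ring of `FN N`, on its residue map `rho`, and on integrality over `K[x]`.
-/
import Fermat.Agent.S34.Nodal.Inst.Contracts
import Fermat.Agent.S34.ALInv
import Fermat.Agent.GAL.E.GalRed

set_option autoImplicit false

noncomputable section

namespace Fermat.Agent.S34.Nodal.Inst.Gal

open ModularCurve AlgebraicCurve Fermat.Agent.S24 Fermat.Agent.S24.B Fermat.Agent.GAL
  Fermat.Agent.GAL.E Fermat.Agent.S18.Vert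

/-! ### The Atkin-Lehner involution as an algebra automorphism -/

/-- The Atkin-Lehner involution as a `Kbar`-algebra automorphism. -/
def wAlg {M q : ℕ} [NeZero M] [NeZero q] (W : ALInv M q) : FN (M * q) ≃ₐ[Kbar] FN (M * q) :=
  AlgEquiv.ofRingEquiv (f := W.w) W.w_algebraMap

theorem wAlg_apply {M q : ℕ} [NeZero M] [NeZero q] (W : ALInv M q) (y : FN (M * q)) :
    wAlg W y = W.w y := rfl

/-! ### Semilinear automorphisms and integrality -/

/-- A semilinear endomorphism fixing `x` preserves `K[x]`. -/
theorem map_mem_adjoin {K F : Type*} [Field K] [Field F] [Algebra K F] (g : F →+* F) (s : K → K)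
    (hg : ∀ c, g (algebraMap K F c) = algebraMap K F (s c)) {x : F} (hx : g x = x) {z : F}
    (hz : z ∈ Algebra.adjoin K {x}) : g z ∈ Algebra.adjoin K {x} := by
  induction hz using Algebra.adjoin_induction with
  | mem z hz =>
    rw [Set.mem_singleton_iff.1 hz, hx]
    exact Algebra.self_mem_adjoin_singleton K x
  | algebraMap c =>
    rw [hg]
    exact Subalgebra.algebraMap_mem _ _
  | add a b _ _ ha hb =>
    rw [map_add]
    exact add_mem ha hb
  | mul a b _ _ ha hb =>
    rw [map_mul]
    exact mul_mem ha hb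

/-- A semilinear endomorphism fixing `x` preserves integrality over `K[x]`. -/
theorem isIntegral_adjoin_map {K F : Type*} [Field K] [Field F] [Algebra K F] (g : F →+* F)
    (s : K → K) (hg : ∀ c, g (algebraMap K F c) = algebraMap K F (s c)) {x : F} (hx : g x = x)
    {y : F} (hy : IsIntegral (Algebra.adjoin K {x}) y) : IsIntegral (Algebra.adjoin K {x}) (g y) := by
  let φ : Algebra.adjoin K {x} →+* Algebra.adjoin K {x} :=
    (g.comp (Algebra.adjoin K {x}).val.toRingHom).codRestrict (Algebra.adjoin K {x})
      fun z => map_mem_adjoin g s hg hx z.2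
  exact hy.map_of_comp_eq φ g (RingHom.ext fun z => rfl)

/-! ### The decomposition group -/

variable (A : ValuationSubring Kbar)

/-- The action of the decomposition group on the residue field. -/
def resHom (g : A.decompositionSubgroup ℚ) : kk A →+* kk A :=
  MulSemiringAction.toRingHom (A.decompositionSubgroup ℚ) (kk A) g

theorem resHom_apply (g : A.decompositionSubgroup ℚ) (a : kk A) : resHom A g a = g • a := rfl

theorem resHom_mul (g h : A.decompositionSubgroup ℚ) (a : kk A) :
    resHom A (g * h) a = resHom A g (resHom A h a) := mul_smul g h a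

theorem red_decompHom (g : A.decompositionSubgroup ℚ) (x : LaurentSeries A) :
    S18.Vert.red A (coeffMap (decompHom A g) x) = coeffMap (resHom A g) (S18.Vert.red A x) := by
  ext k
  exact coeff_red_decompHom A g x k

theorem inc_decompHom (g : A.decompositionSubgroup ℚ) (x : LaurentSeries A) :
    inc A (coeffMap (decompHom A g) x) = coeffMap ((g : GQ) : Kbar →+* Kbar) (inc A x) :=
  incl_decompHom A g x

theorem coeffMap_ne_zero' {R S : Type*} [CommRing R] [CommRing S] (φ : R →+* S)
    (hφ : Function.Injective φ) {x : LaurentSeries R} (hx : x ≠ 0) : coeffMap φ x ≠ 0 := by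
  intro h
  apply hx
  ext k
  have := congrArg (fun y => HahnSeries.coeff y k) h
  simp only [coeffMap_coeff, HahnSeries.coeff_zero] at this
  rw [HahnSeries.coeff_zero]
  exact hφ (by rw [this, map_zero])

variable {A} {N : ℕ}

/-- The decomposition group preserves the Gauss ring; explicit form. -/
theorem gauss_data (g : A.decompositionSubgroup ℚ) {y : FN N} {P Q : LaurentSeries A}
    (hP : inc A P ∈ modularFunctionFieldBar N) (hQ : inc A Q ∈ modularFunctionFieldBar N)
    (hQ0 : S18.Vert.red A Q ≠ 0) (h : (y : LaurentSeries Kbar) * inc A Q = inc A P) :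
    inc A (coeffMap (decompHom A g) P) ∈ modularFunctionFieldBar N ∧
      inc A (coeffMap (decompHom A g) Q) ∈ modularFunctionFieldBar N ∧
      S18.Vert.red A (coeffMap (decompHom A g) Q) ≠ 0 ∧
      (galF N g y : LaurentSeries Kbar) * inc A (coeffMap (decompHom A g) Q) =
        inc A (coeffMap (decompHom A g) P) := by
  refine ⟨?_, ?_, ?_, ?_⟩
  · rw [inc_decompHom]
    exact (galF N g ⟨inc A P, hP⟩).2
  · rw [inc_decompHom]
    exact (galF N g ⟨inc A Q, hQ⟩).2
  · rw [red_decompHom]
    exact coeffMap_ne_zero' _ (resHom A g).injective hQ0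
  · rw [inc_decompHom, inc_decompHom, coe_galF, ← map_mul, h]

theorem galF_mem_gauss (g : A.decompositionSubgroup ℚ) {y : FN N}
    (hy : y ∈ gaussSubring A (modularFunctionFieldBar N)) :
    galF N g y ∈ gaussSubring A (modularFunctionFieldBar N) := by
  obtain ⟨P, Q, hP, hQ, hQ0, h⟩ := hy
  obtain ⟨h1, h2, h3, h4⟩ := gauss_data g hP hQ hQ0 h
  exact ⟨_, _, h1, h2, h3, h4⟩

theorem rho_galF (g : A.decompositionSubgroup ℚ) (y : gaussSubring A (modularFunctionFieldBar N)) :
    rho A (modularFunctionFieldBar N) ⟨galF N g y, galF_mem_gauss g y.2⟩ =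
      coeffMap (resHom A g) (rho A (modularFunctionFieldBar N) y) := by
  obtain ⟨P, Q, hP, hQ, hQ0, h⟩ := y.2
  obtain ⟨h1, h2, h3, h4⟩ := gauss_data g hP hQ hQ0 h
  have e1 := rho_spec (A := A) (F := modularFunctionFieldBar N) y hQ0 h
  have e2 := rho_spec (A := A) (F := modularFunctionFieldBar N)
    ⟨galF N g y, galF_mem_gauss g y.2⟩ h3 h4
  apply mul_right_cancel₀ h3
  rw [e2, red_decompHom, red_decompHom, ← map_mul, e1]

theorem galF_isIntegral (σ : GQ) {x y : FN N} (hx : galF N σ x = x)
    (hy : IsIntegral (Algebra.adjoin Kbar {x}) y) :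
    IsIntegral (Algebra.adjoin Kbar {x}) (galF N σ y) :=
  isIntegral_adjoin_map (galF N σ : FN N →+* FN N) σ (galF_algebraMap N σ) hx hy

theorem galF_mem_chart' (g : A.decompositionSubgroup ℚ) {x y : FN N} (hx : galF N g x = x)
    (hy : y ∈ chart' A (modularFunctionFieldBar N) x) :
    galF N g y ∈ chart' A (modularFunctionFieldBar N) x :=
  ⟨galF_mem_gauss g hy.1, galF_isIntegral g hx hy.2⟩

/-- The coefficientwise action of the decomposition group preserves `bb`. -/
theorem coeffMap_mem_bb (g : A.decompositionSubgroup ℚ) {x : FN N} (hx : galF N g x = x)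
    {f : LaurentSeries (kk A)} (hf : f ∈ bb A (modularFunctionFieldBar N) x) :
    coeffMap (resHom A g) f ∈ bb A (modularFunctionFieldBar N) x := by
  obtain ⟨y, hy, rfl⟩ := hf
  exact ⟨⟨galF N g y, galF_mem_gauss g y.2⟩, galF_mem_chart' g hx hy, rho_galF g y⟩

end Fermat.Agent.S34.Nodal.Inst.Gal

end
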