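/-
C1 nodal core, instantiation, BLOCK Gal (helper34): `GalCompat` for the elements of the inertia group
(`φ = id`, `Q = 1`) and for the square of a Frobenius element (`φ` = coefficientwise `q ^ 2`-power,
`Q = q ^ 2`).
-/
import Fermat.Agent.S34.Nodal.Inst.Gal.Basic
import Fermat.Agent.GAL.E.Frob

set_option autoImplicit false

noncomputable section

namespace Fermat.Agent.S34.Nodal.Inst.Gal

open ModularCurve AlgebraicCurve Fermat.Agent.S24 Fermat.Agent.S24.B Fermat.Agent.GAL
  Fermat.Agent.GAL.E Fermat.Agent.S18.Vert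

variable {A : ValuationSubring Kbar} {M q n : ℕ} [NeZero M] [NeZero q]

/-- `α x' * β x'` is Galois invariant if `x'` is. -/
theorem galF_alpha_mul_beta (σ : GQ) {x' : FN M} (hx' : galF M σ x' = x') :
    galF (M * q) σ (heckeAlphaBar Kbar M q x' * heckeBetaBar Kbar M q x') =
      heckeAlphaBar Kbar M q x' * heckeBetaBar Kbar M q x' := by
  rw [map_mul, galF_alpha, galF_beta, hx']

/-- `GalCompat` for an element of the decomposition group, up to the field `cond`. -/
theorem galCompat_of_decomp (hq : q.Prime) (W : ALInv M q) {x' : FN M} {x : FN (M * q)}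
    (C : Contracts A (modularFunctionFieldBar (M * q)) (modularFunctionFieldBar M) (wAlg W) x' x n q
      (IsKum (M * q) n))
    (g : A.decompositionSubgroup ℚ) (hx : galF (M * q) g x = x) (Q : ℕ)
    (hcond : ∀ f : bb A (modularFunctionFieldBar M) x',
      ∃ hf : coeffMap (resHom A g) f ∈ bb A (modularFunctionFieldBar M) x',
        (⟨coeffMap (resHom A g) f, hf⟩ : bb A (modularFunctionFieldBar M) x') - f ^ Q ∈
          condIdeal C.Fr2) :
    GalCompat A (modularFunctionFieldBar (M * q)) (modularFunctionFieldBar M) (wAlg W) C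
      (galF (M * q) g) (coeffMap (resHom A g)) Q where
  gauss := fun y hy => galF_mem_gauss g hy
  comm := fun y => (W.w_galF hq g y).symm
  fix_x := hx
  integral1 := fun y hy => galF_isIntegral g hx hy
  integral2 := fun y hy => galF_isIntegral g (by rw [map_inv₀, hx]) hy
  rho_eq := fun y => rho_galF g y
  cond := hcond
  isK := fun u hu => IsKum.galF hu g

/-! ### Inertia -/

theorem resHom_of_inertia {g : A.decompositionSubgroup ℚ} (hg : g ∈ A.inertiaSubgroup ℚ) :
    resHom A g = RingHom.id (kk A) := by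
  ext a
  have h : MulSemiringAction.toRingAut (A.decompositionSubgroup ℚ)
      (IsLocalRing.ResidueField A) g = 1 := hg
  exact congrArg (fun f : RingAut (IsLocalRing.ResidueField A) => f a) h

theorem coeffMap_id' {R : Type*} [CommRing R] :
    coeffMap (RingHom.id R) = RingHom.id (LaurentSeries R) :=
  RingHom.ext fun x => coeffMap_id x

/-- **`GalCompat` for the inertia group**: `φ = id`, `Q = 1`. -/
theorem galCompat_inertia (hq : q.Prime) (W : ALInv M q) {x' : FN M} {x : FN (M * q)}
    (C : Contracts A (modularFunctionFieldBar (M * q)) (modularFunctionFieldBar M) (wAlg W) x' x n q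
      (IsKum (M * q) n))
    (τ : GQ) (hτ : τ ∈ A.inertiaSubgroupIn ℚ) (hx : galF (M * q) τ x = x) :
    GalCompat A (modularFunctionFieldBar (M * q)) (modularFunctionFieldBar M) (wAlg W) C
      (galF (M * q) τ) (RingHom.id _) 1 := by
  obtain ⟨g, hg, rfl⟩ := hτ
  have hφ : coeffMap (resHom A g) = RingHom.id (LaurentSeries (kk A)) := by
    rw [resHom_of_inertia hg, coeffMap_id']
  have := galCompat_of_decomp hq W C g hx 1 (by
    intro f
    rw [hφ]
    refine ⟨f.2, ?_⟩
    rw [pow_one]
    have : (⟨(RingHom.id (LaurentSeries (kk A))) (f : LaurentSeries (kk A)), f.2⟩ :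
        bb A (modularFunctionFieldBar M) x') = f := rfl
    rw [this, sub_self]
    exact zero_mem _)
  rwa [hφ] at this

/-! ### The square of a Frobenius element -/

section Frob

variable [Fact q.Prime] [CharP (kk A) q]

theorem resHom_of_frobenius {σ : GQ} (hσ : A.IsFrobeniusAt σ q) :
    resHom A ⟨σ, hσ.mem_decompositionSubgroup⟩ = frobenius (kk A) q := by
  ext a
  rw [resHom_apply, hσ.smul_residue_eq, frobenius_def]

/-- `f ↦ f ^ q` is injective on `k((t))`. -/
theorem pow_char_injective {a b : LaurentSeries (kk A)} (h : a ^ q = b ^ q) : a = b := by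
  rw [pow_char_eq_qExpand q, pow_char_eq_qExpand q] at h
  have h1 := ModularCurve.qExpand_injective q h
  by_contra hne
  exact coeffMap_ne_zero' _ (frobenius (kk A) q).injective (sub_ne_zero.2 hne)
    (by rw [map_sub, h1, sub_self])

theorem pow_char_sq_injective {a b : LaurentSeries (kk A)} (h : a ^ (q ^ 2) = b ^ (q ^ 2)) :
    a = b := by
  rw [pow_two, pow_mul, pow_mul] at h
  exact pow_char_injective (pow_char_injective h)

/-- `f ^ (q ^ 2) = (φ f) (t ^ (q ^ 2))`, `φ` the coefficientwise `q ^ 2`-power. -/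
theorem pow_char_sq_eq (f : LaurentSeries (kk A)) :
    f ^ (q ^ 2) = qExpand (kk A) (q ^ 2)
      (coeffMap (frobenius (kk A) q) (coeffMap (frobenius (kk A) q) f)) := by
  rw [ModularCurve.qExpand_congr (pow_two q), ← ModularCurve.qExpand_qExpand, ← coeffMap_qExpand_aux,
    ← pow_char_eq_qExpand q f, ← pow_char_eq_qExpand q, ← pow_mul, pow_two]

/-- The element `σ ^ 2` of the decomposition group. -/
def frobSq {σ : GQ} (hσ : A.IsFrobeniusAt σ q) : A.decompositionSubgroup ℚ :=
  ⟨σ, hσ.mem_decompositionSubgroup⟩ * ⟨σ, hσ.mem_decompositionSubgroup⟩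

omit [Fact q.Prime] [CharP (kk A) q] in
theorem coe_frobSq {σ : GQ} (hσ : A.IsFrobeniusAt σ q) : ((frobSq hσ : _) : GQ) = σ * σ := rfl

theorem coeffMap_resHom_frobSq {σ : GQ} (hσ : A.IsFrobeniusAt σ q) (f : LaurentSeries (kk A)) :
    coeffMap (resHom A (frobSq hσ)) f =
      coeffMap (frobenius (kk A) q) (coeffMap (frobenius (kk A) q) f) := by
  rw [coeffMap_coeffMap, ← resHom_of_frobenius hσ]
  have : resHom A (frobSq hσ) = (resHom A ⟨σ, hσ.mem_decompositionSubgroup⟩).comp
      (resHom A ⟨σ, hσ.mem_decompositionSubgroup⟩) := RingHom.ext fun a => resHom_mul A _ _ a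
  rw [this]

/-- **`GalCompat` for the square of a Frobenius element**: `φ` = coefficientwise `q ^ 2`-power,
`Q = q ^ 2`.  The hypothesis `hFr2` says that `C.Fr2` is `f(t) ↦ f(t ^ (q ^ 2))`. -/
theorem galCompat_frobSq (hq : q.Prime) (W : ALInv M q) {x' : FN M} {x : FN (M * q)}
    (C : Contracts A (modularFunctionFieldBar (M * q)) (modularFunctionFieldBar M) (wAlg W) x' x n q
      (IsKum (M * q) n))
    (hFr2 : ∀ f : bb A (modularFunctionFieldBar M) x',
      ((C.Fr2 f : bb A (modularFunctionFieldBar M) x') : LaurentSeries (kk A)) =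
        qExpand (kk A) (q ^ 2) (f : LaurentSeries (kk A)))
    {σ : GQ} (hσ : A.IsFrobeniusAt σ q) (hx' : galF M σ x' = x') (hx : galF (M * q) σ x = x) :
    GalCompat A (modularFunctionFieldBar (M * q)) (modularFunctionFieldBar M) (wAlg W) C
      (galF (M * q) (σ * σ)) (coeffMap (resHom A (frobSq hσ))) (q ^ 2) := by
  refine galCompat_of_decomp hq W C (frobSq hσ) ?_ (q ^ 2) ?_
  · rw [coe_frobSq, galF_mul, hx, hx]
  · intro f
    have hf : coeffMap (resHom A (frobSq hσ)) (f : LaurentSeries (kk A)) ∈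
        bb A (modularFunctionFieldBar M) x' :=
      coeffMap_mem_bb (frobSq hσ) (by rw [coe_frobSq, galF_mul, hx', hx']) f.2
    refine ⟨hf, sub_pow_mem_condIdeal C.Fr2 C.ψ (q ^ 2) C.Fr2_eq f _ ?_⟩
    apply Subtype.ext
    apply pow_char_sq_injective
    have h1 := congrArg (Subtype.val) (C.Fr2_eq ⟨_, hf⟩)
    rw [hFr2] at h1
    rw [pow_char_sq_eq (f : LaurentSeries (kk A)), ← coeffMap_resHom_frobSq hσ, h1]
    rfl

end Frob

end Fermat.Agent.S34.Nodal.Inst.Gal

end
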