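/-
C1 nodal core, instantiation, BLOCK Gal (helper34): the bridge between `S34.OneAt` (the hypothesis of
`S34.Tor`) and `red2 = 1`; Galois invariance of functions with rational coefficients.
-/
import Fermat.Agent.S34.Nodal.Inst.Gal.Basic
import Fermat.Agent.S34.OneAt

set_option autoImplicit false

noncomputable section

namespace Fermat.Agent.S34.Nodal.Inst.Gal

open ModularCurve AlgebraicCurve Fermat.Agent.S24 Fermat.Agent.S24.B Fermat.Agent.GAL
  Fermat.Agent.GAL.E Fermat.Agent.S18.Vert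

variable {A : ValuationSubring Kbar} {N : ℕ}

theorem oneAt_data {u : FN N} (h : OneAt N A u) :
    ∃ P Q : LaurentSeries A, inc A P ∈ modularFunctionFieldBar N ∧
      inc A Q ∈ modularFunctionFieldBar N ∧ S18.Vert.red A Q ≠ 0 ∧
      S18.Vert.red A P = S18.Vert.red A Q ∧ (u : LaurentSeries Kbar) * inc A Q = inc A P := by
  obtain ⟨P, Q, hP, hQ, h1, h2, h3⟩ := h
  refine ⟨P, Q, hP, hQ, h2, h1, ?_⟩
  have hQ0 : (⟨incl A Q, hQ⟩ : FN N) ≠ 0 := by
    intro h0
    have h0' : incl A Q = 0 := congrArg Subtype.val h0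
    have : Q = 0 := incl_injective A (by rw [h0', map_zero])
    exact h2 (by rw [this, map_zero])
  have h4 : u * (⟨incl A Q, hQ⟩ : FN N) = ⟨incl A P, hP⟩ := by
    rw [h3, div_mul_cancel₀ _ hQ0]
  exact congrArg Subtype.val h4

theorem mem_gauss_of_oneAt {u : FN N} (h : OneAt N A u) :
    u ∈ gaussSubring A (modularFunctionFieldBar N) := by
  obtain ⟨P, Q, hP, hQ, hQ0, -, e⟩ := oneAt_data h
  exact ⟨P, Q, hP, hQ, hQ0, e⟩

theorem rho_of_oneAt {u : FN N} (h : OneAt N A u) :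
    rho A (modularFunctionFieldBar N) ⟨u, mem_gauss_of_oneAt h⟩ = 1 := by
  obtain ⟨P, Q, hP, hQ, hQ0, hPQ, e⟩ := oneAt_data h
  have e1 := rho_spec (A := A) (F := modularFunctionFieldBar N) ⟨u, mem_gauss_of_oneAt h⟩ hQ0 e
  apply mul_right_cancel₀ hQ0
  rw [e1, hPQ, one_mul]

/-- Conversely. -/
theorem oneAt_of_rho {u : gaussSubring A (modularFunctionFieldBar N)}
    (h : rho A (modularFunctionFieldBar N) u = 1) : OneAt N A (u : FN N) := by
  obtain ⟨P, Q, hP, hQ, hQ0, e⟩ := u.2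
  have e1 := rho_spec (A := A) (F := modularFunctionFieldBar N) u hQ0 e
  rw [h, one_mul] at e1
  have hQ1 : (⟨incl A Q, hQ⟩ : FN N) ≠ 0 := by
    intro h0
    have h0' : incl A Q = 0 := congrArg Subtype.val h0
    have : Q = 0 := incl_injective A (by rw [h0', map_zero])
    exact hQ0 (by rw [this, map_zero])
  refine ⟨P, Q, hP, hQ, e1.symm, hQ0, ?_⟩
  rw [eq_div_iff hQ1]
  exact Subtype.ext e

variable {M q : ℕ} [NeZero M] [NeZero q]

theorem mem_OO_of_oneAt (W : ALInv M q) {u : FN (M * q)} (h1 : OneAt (M * q) A u)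
    (h2 : OneAt (M * q) A (W.w u)) : u ∈ OO A (modularFunctionFieldBar (M * q)) (wAlg W) :=
  ⟨mem_gauss_of_oneAt h1, mem_gauss_of_oneAt h2⟩

theorem red2_of_oneAt (W : ALInv M q) {u : FN (M * q)} (h1 : OneAt (M * q) A u)
    (h2 : OneAt (M * q) A (W.w u)) :
    red2 A (modularFunctionFieldBar (M * q)) (wAlg W) ⟨u, mem_OO_of_oneAt W h1 h2⟩ = 1 :=
  Prod.ext (rho_of_oneAt h1) (rho_of_oneAt h2)

/-! ### Functions with rational coefficients -/

theorem galF_of_coeffEmb (σ : GQ) {x : FN N} {s : LaurentSeries ℚ}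
    (hx : (x : LaurentSeries Kbar) = coeffEmb Kbar s) : galF N σ x = x := by
  apply Subtype.ext
  rw [coe_galF, hx]
  ext k
  rw [coeffMap_coeff, coeffEmb_coeff]
  exact map_ratCast (σ : Kbar →+* Kbar) _

theorem galF_JF' (σ : GQ) (d : ℕ) [NeZero d] (hd : d ∣ N) : galF N σ (JF N d hd) = JF N d hd :=
  galF_of_coeffEmb σ (s := qExpand ℚ d jq) rfl

end Fermat.Agent.S34.Nodal.Inst.Gal

end
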